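import Mathlib
import Fermat.Prelude.Def_ModularCurve_HeckeOperatorTotal
import Fermat.Agent.S18.A.Instances

/-!
# PROJECT I (S37), slice I-3a: the degeneracy maps `α`, `β` between the function fields of
`X₀(N)` and `X₀(Nℓ)` over `ℚ̄` are integral and finite

General part: a `K`-algebra homomorphism `φ : F₁ →ₐ[K] F₂` between two function fields in one
variable over `K` (`S24.FF.IsFF`) is integral and finite, and maps separating variables to
separating variables.

Instances: `alphaIntegral`, `betaIntegral`, `finiteAlong_alpha`, `finiteAlong_beta`,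
`hasPrincipalDivisors_level`, `isFF_alpha_jgen`, `isFF_beta_jgen` for `L = ℚ̄`.
-/

set_option autoImplicit false

namespace Fermat.Agent.S37.Hecke.Integral

open AlgebraicCurve IntermediateField Polynomial Fermat.Agent.S24.FF

section General

universe u w

variable {K : Type w} {F₁ F₂ : Type u} [Field K] [Field F₁] [Field F₂] [Algebra K F₁]
  [Algebra K F₂]

/-- the image of a transcendental element under a homomorphism of fields is transcendental -/
theorem transcendental_map (φ : F₁ →ₐ[K] F₂) {x : F₁} (hx : Transcendental K x) :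
    Transcendental K (φ x) :=
  fun h => hx ((isAlgebraic_algHom_iff φ φ.injective).mp h)

/-- the image of a separating variable is a separating variable of the target function field -/
theorem isFF_map (φ : F₁ →ₐ[K] F₂) {x₁ : F₁} (h₁ : Transcendental K x₁) {x₂ : F₂}
    (h₂ : IsFF K x₂) : IsFF K (φ x₁) :=
  h₂.of_transcendental (transcendental_map φ h₁)

/-- **A homomorphism of function fields is integral.** -/
theorem isIntegral_of_isFF (φ : F₁ →ₐ[K] F₂) {x₁ : F₁} (h₁ : Transcendental K x₁) {x₂ : F₂}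
    (h₂ : IsFF K x₂) : φ.toRingHom.IsIntegral := by
  have hff : IsFF K (φ x₁) := isFF_map φ h₁ h₂
  have hfin := hff.finite
  let _ : Algebra F₁ F₂ := φ.toRingHom.toAlgebra
  intro y
  show IsIntegral F₁ y
  apply IsAlgebraic.isIntegral
  obtain ⟨p, hp0, hpy⟩ := (Algebra.IsAlgebraic.isAlgebraic (R := K⟮φ x₁⟯) y)
  have hle : K⟮φ x₁⟯ ≤ φ.fieldRange := by
    rw [IntermediateField.adjoin_le_iff]
    rintro _ rfl
    exact ⟨x₁, rfl⟩
  have hlift : p.map (algebraMap K⟮φ x₁⟯ F₂) ∈ Polynomial.lifts φ.toRingHom := by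
    rw [Polynomial.lifts_iff_coeff_lifts]
    intro n
    rw [Polynomial.coeff_map]
    obtain ⟨c, hc⟩ := hle (p.coeff n).2
    exact ⟨c, hc⟩
  obtain ⟨q, hq⟩ := (Polynomial.mem_lifts _).mp hlift
  refine ⟨q, ?_, ?_⟩
  · intro h0
    rw [h0, Polynomial.map_zero] at hq
    apply hp0
    apply Polynomial.map_injective _ (algebraMap K⟮φ x₁⟯ F₂).injective
    rw [← hq, Polynomial.map_zero]
  · have h1 : aeval y q = eval y (q.map φ.toRingHom) := by
      rw [aeval_def, eval_map]
      rfl
    rw [h1, hq, eval_map, ← aeval_def]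
    exact hpy

/-- **A homomorphism of function fields is finite.** -/
theorem finiteAlong_of_isFF (φ : F₁ →ₐ[K] F₂) {x₁ : F₁} (h₁ : Transcendental K x₁) {x₂ : F₂}
    (h₂ : IsFF K x₂) : FiniteAlong K φ := by
  let _ : Algebra F₁ F₂ := φ.toRingHom.toAlgebra
  have : IsScalarTower K F₁ F₂ := isScalarTower_along φ
  have : Algebra.IsIntegral F₁ F₂ := ⟨isIntegral_of_isFF φ h₁ h₂⟩
  have : Algebra.EssFiniteType K F₂ := h₂.essFiniteType
  have : Algebra.EssFiniteType F₁ F₂ := Algebra.EssFiniteType.of_comp K F₁ F₂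
  have : Algebra.IsAlgebraic F₁ F₂ := Algebra.IsIntegral.isAlgebraic
  exact Algebra.finite_of_essFiniteType_of_isAlgebraic

end General

/-! ### the degeneracy maps of `X₀(Nℓ) → X₀(N)` over `ℚ̄` -/

section Bar

open ModularCurve Fermat.Agent.S18.A.Instances

local notation "Kb" => AlgebraicClosure ℚ

variable (N ℓ : ℕ) [NeZero N] [NeZero ℓ]

/-- `j` at level `N`, as an element of the function field -/
noncomputable abbrev jN : modularFunctionFieldBar N := Fermat.Agent.S24.DegreeAlg.jgen N

theorem transcendental_jN : Transcendental Kb (jN N) := (isFF_jgen N).transcendental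

/-- `α` is integral -/
theorem alphaIntegral : HeckeAlphaBarIntegral Kb N ℓ :=
  isIntegral_of_isFF (heckeAlphaBar Kb N ℓ) (transcendental_jN N) (isFF_jgen (N * ℓ))

/-- `β` is integral -/
theorem betaIntegral : HeckeBetaBarIntegral Kb N ℓ :=
  isIntegral_of_isFF (heckeBetaBar Kb N ℓ) (transcendental_jN N) (isFF_jgen (N * ℓ))

/-- `ℚ̄(X₀(Nℓ))` is finite over `α ℚ̄(X₀(N))` -/
theorem finiteAlong_alpha : FiniteAlong Kb (heckeAlphaBar Kb N ℓ) :=
  finiteAlong_of_isFF (heckeAlphaBar Kb N ℓ) (transcendental_jN N) (isFF_jgen (N * ℓ))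

/-- `ℚ̄(X₀(Nℓ))` is finite over `β ℚ̄(X₀(N))` -/
theorem finiteAlong_beta : FiniteAlong Kb (heckeBetaBar Kb N ℓ) :=
  finiteAlong_of_isFF (heckeBetaBar Kb N ℓ) (transcendental_jN N) (isFF_jgen (N * ℓ))

/-- `α j` is a separating variable at level `Nℓ` -/
theorem isFF_alpha_jgen : IsFF Kb (heckeAlphaBar Kb N ℓ (jN N)) :=
  isFF_map (heckeAlphaBar Kb N ℓ) (transcendental_jN N) (isFF_jgen (N * ℓ))

/-- `β j = j(q^ℓ)` is a separating variable at level `Nℓ` -/
theorem isFF_beta_jgen : IsFF Kb (heckeBetaBar Kb N ℓ (jN N)) :=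
  isFF_map (heckeBetaBar Kb N ℓ) (transcendental_jN N) (isFF_jgen (N * ℓ))

/-- principal divisors at level `Nℓ` -/
theorem hasPrincipalDivisors_level :
    HasPrincipalDivisors Kb (laurentBaseChange Kb (modularFunctionFieldFull (N * ℓ))) :=
  hasPrincipalDivisors_bar (N * ℓ)

end Bar

end Fermat.Agent.S37.Hecke.Integral
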