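/-
PROJECT I (S37), slice I-3 (helper19): the multiplicity of a prime in a relative ideal norm.
Mathlib only.
-/
import Mathlib

set_option autoImplicit false
set_option linter.style.haveILetI false

namespace Fermat.Agent.S37.Hecke.RelNorm

open Ideal

variable {R S : Type*} [CommRing R] [IsDedekindDomain R] [CommRing S] [IsDedekindDomain S]
  [Algebra R S] [Module.Finite R S] [Module.IsTorsionFree R S] [PerfectField (FractionRing R)]

/-- for distinct nonzero primes of a Dedekind domain the multiplicity is zero -/
theorem multiplicity_prime_prime {A : Type*} [CommRing A] [IsDedekindDomain A] {p q : Ideal A}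
    [hp : p.IsPrime] (hq : q.IsMaximal) [DecidableEq (Ideal A)] :
    multiplicity p q = if p = q then 1 else 0 := by
  split_ifs with h
  · subst h
    exact multiplicity_self
  · rw [multiplicity_eq_zero, Ideal.dvd_iff_le]
    intro hle
    exact h (hq.eq_of_le hp.ne_top hle).symm

/-- **the multiplicity of `P` in the relative norm of `I`** -/
theorem multiplicity_relNorm (P : Ideal R) [hPmax : P.IsMaximal] (hP : P ≠ ⊥)
    [Fintype (P.primesOver S)] (I : Ideal S) (hI : I ≠ ⊥) :
    multiplicity P (relNorm R I) =
      ∑ q : P.primesOver S, multiplicity q.1 I * q.1.inertiaDeg R := by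
  classical
  have hPprime : Prime P := Ideal.prime_of_isPrime hP hPmax.isPrime
  have hqprime : ∀ q : P.primesOver S, Prime q.1 := fun q => by
    haveI := q.2.2
    exact Ideal.prime_of_isPrime (Ideal.ne_bot_of_liesOver_of_ne_bot hP q.1) q.2.1
  induction I using UniqueFactorizationMonoid.induction_on_prime with
  | h₁ => exact absurd rfl hI
  | h₂ J hJ =>
    have hJ' : J = ⊤ := Ideal.isUnit_iff.mp hJ
    subst hJ'
    rw [relNorm_top]
    have h1 : multiplicity P (⊤ : Ideal R) = 0 := by
      rw [multiplicity_eq_zero, Ideal.dvd_iff_le, top_le_iff]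
      exact hPmax.ne_top
    rw [h1]
    symm
    refine Finset.sum_eq_zero fun q _ => ?_
    have h2 : multiplicity q.1 (⊤ : Ideal S) = 0 := by
      rw [multiplicity_eq_zero, Ideal.dvd_iff_le, top_le_iff]
      exact q.2.1.ne_top
    rw [h2, zero_mul]
  | h₃ J Q hJ hQ ih =>
    have hQ0 : Q ≠ ⊥ := hQ.ne_zero
    haveI hQprime : Q.IsPrime := Ideal.isPrime_of_prime hQ
    haveI hQmax : Q.IsMaximal := hQprime.isMaximal hQ0
    have ih' := ih hJ
    have hne : relNorm R (Q * J) ≠ ⊥ := by
      rw [Ne, relNorm_eq_bot_iff]
      exact mul_ne_zero hQ0 hJ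
    rw [map_mul] at hne ⊢
    rw [multiplicity_mul hPprime (FiniteMultiplicity.of_prime_left hPprime hne), ih']
    have hsum : ∀ q : P.primesOver S, multiplicity q.1 (Q * J) =
        multiplicity q.1 Q + multiplicity q.1 J := fun q =>
      multiplicity_mul (hqprime q)
        (FiniteMultiplicity.of_prime_left (hqprime q) (mul_ne_zero hQ0 hJ))
    simp_rw [hsum, add_mul, Finset.sum_add_distrib]
    congr 1
    -- the contribution of the prime `Q`
    set p' : Ideal R := Q.under R with hp'
    haveI : Q.LiesOver p' := ⟨rfl⟩
    haveI hp'max : p'.IsMaximal := inferInstance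
    rw [relNorm_eq_pow_of_isMaximal Q p']
    have hmq : ∀ q : P.primesOver S, multiplicity q.1 Q = if q.1 = Q then 1 else 0 := fun q => by
      haveI := q.2.1
      haveI := q.2.2
      exact multiplicity_prime_prime hQmax
    simp_rw [hmq, ite_mul, one_mul, zero_mul]
    by_cases hpP : p' = P
    · rw [hpP, multiplicity_pow_self_of_prime hPprime]
      have hQover : Q ∈ P.primesOver S := ⟨hQprime, ⟨hpP.symm ▸ rfl⟩⟩
      rw [Finset.sum_eq_single_of_mem (⟨Q, hQover⟩ : P.primesOver S) (Finset.mem_univ _)]
      · simp
      · intro q _ hq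
        rw [if_neg]
        intro h
        exact hq (Subtype.ext h)
    · have h1 : multiplicity P (p' ^ Q.inertiaDeg R) = 0 := by
        rw [multiplicity_eq_zero]
        intro hdvd
        have h2 := hPprime.dvd_of_dvd_pow hdvd
        rw [Ideal.dvd_iff_le] at h2
        exact hpP (hp'max.eq_of_le hPmax.ne_top h2)
      rw [h1]
      symm
      refine Finset.sum_eq_zero fun q _ => ?_
      rw [if_neg]
      intro h
      apply hpP
      haveI := q.2.2
      rw [hp', ← h]
      exact (Ideal.over_def q.1 P).symm

end Fermat.Agent.S37.Hecke.RelNorm
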