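/-
PROJECT I (S37), slice I-3 (helper19): the two-level place/prime dictionary.

For Dedekind domains `B ⊆ B'` with fraction fields `F ⊆ F'` (function fields over `K`), the places
of `F'` above the place of a prime `P` of `B` are the places of the primes `Q` of `B'` above `P`,
the prelude ramification index `Place.ramificationIndex` is Mathlib's `Ideal.ramificationIdx`, and
(if all residue fields are `K`) the fundamental identity `∑ e = [F' : F]` holds fibrewise.
-/
import Mathlib
import Fermat.Agent.S24.Fibre
import Fermat.Prelude.Def_AlgebraicCurve_Correspondence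
import Fermat.Agent.S37.Hecke.RelNorm

set_option autoImplicit false
set_option linter.style.haveILetI false
set_option linter.unusedSectionVars false

namespace Fermat.Agent.S37.Hecke.Dict

open AlgebraicCurve IsDedekindDomain WithZero

attribute [local instance] FractionRing.liftAlgebra
open Fermat.Agent.S24.PlacePrime

section Abstract

variable {K F F' : Type*} [Field K] [Field F] [Field F'] [Algebra K F] [Algebra K F']
  [Algebra F F'] [IsScalarTower K F F'] [Algebra.IsIntegral F F']
variable {B B' : Type*} [CommRing B] [IsDedekindDomain B] [CommRing B'] [IsDedekindDomain B']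
  [Algebra B F] [IsFractionRing B F] [Algebra K B] [IsScalarTower K B F]
  [Algebra B' F'] [IsFractionRing B' F'] [Algebra K B'] [IsScalarTower K B' F']
  [Algebra B B'] [Module.IsTorsionFree B B'] [Algebra B F'] [IsScalarTower B F F']
  [IsScalarTower B B' F']

/-- the place of a prime `Q` of `B'` above `P` restricts to the place of `P` -/
theorem restrict_placeOfPrime (P : HeightOneSpectrum B) (Q : HeightOneSpectrum B')
    [Q.asIdeal.LiesOver P.asIdeal] :
    (placeOfPrime (K := K) (F := F') Q).restrict F = placeOfPrime (K := K) (F := F) P := by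
  refine Place.ext (SetLike.ext fun f => ?_)
  rw [Place.restrict_toValuationSubring, ValuationSubring.mem_comap, mem_placeOfPrime,
    mem_placeOfPrime, ← HeightOneSpectrum.valuation_liesOver F' P Q f]
  have he : P.asIdeal.ramificationIdx' Q.asIdeal ≠ 0 :=
    Ideal.IsDedekindDomain.ramificationIdx'_ne_zero_of_liesOver Q.asIdeal P.ne_bot
  exact pow_le_one_iff he

/-- the prelude ramification index of the place of `Q` is the ramification index of `Q` -/
theorem ramificationIndex_placeOfPrime (P : HeightOneSpectrum B) (Q : HeightOneSpectrum B')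
    [Q.asIdeal.LiesOver P.asIdeal] :
    (placeOfPrime (K := K) (F := F') Q).ramificationIndex F =
      P.asIdeal.ramificationIdx' Q.asIdeal := by
  obtain ⟨π, hπ⟩ := P.valuation_exists_uniformizer F
  have hπ0 : π ≠ 0 := by
    rintro rfl
    rw [map_zero] at hπ
    exact WithZero.exp_ne_zero hπ.symm
  have h1 := (placeOfPrime (K := K) (F := F') Q).ord_restrict (F := F) π
  rw [restrict_placeOfPrime P Q, placeOfPrime_ord, placeOfPrime_ord,
    ← HeightOneSpectrum.valuation_liesOver F' P Q π, hπ] at h1
  simp only [← exp_nsmul, log_exp, neg_neg, smul_neg, nsmul_eq_mul, mul_one] at h1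
  exact_mod_cast h1.symm

variable [Algebra.IsIntegral B B']

/-- the height one prime of `B` below a height one prime of `B'` -/
noncomputable def below (Q : HeightOneSpectrum B') : HeightOneSpectrum B :=
  ⟨Q.asIdeal.under B, inferInstance, Ideal.under_ne_bot B Q.ne_bot⟩

instance liesOver_below (Q : HeightOneSpectrum B') :
    Q.asIdeal.LiesOver (below (B := B) Q).asIdeal := ⟨rfl⟩

/-- a place of `F'` above the place of `P` whose valuation ring contains `B'` is the place of a
prime `Q` of `B'` above `P` -/
theorem exists_prime_over (P : HeightOneSpectrum B) (w : Place K F')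
    (hw : w.restrict F = placeOfPrime (K := K) (F := F) P)
    (hB' : ∀ b : B', algebraMap B' F' b ∈ w.toValuationSubring) :
    ∃ Q : HeightOneSpectrum B', Q.asIdeal.LiesOver P.asIdeal ∧
      placeOfPrime (K := K) (F := F') Q = w := by
  obtain ⟨Q, hQ⟩ := exists_prime_of_place w hB'
  refine ⟨Q, ?_, hQ⟩
  have h1 := restrict_placeOfPrime (K := K) (F := F) (F' := F') (below (B := B) Q) Q
  rw [hQ, hw] at h1
  have h2 : P = below (B := B) Q := placeOfPrime_injective h1
  rw [h2]
  infer_instance

/-- the valuation ring of a place above the place of `P` contains `B'` -/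
theorem mem_of_restrict_eq (P : HeightOneSpectrum B) (w : Place K F')
    (hw : w.restrict F = placeOfPrime (K := K) (F := F) P) (b : B') :
    algebraMap B' F' b ∈ w.toValuationSubring := by
  rw [Fermat.Agent.S24.Ord.mem_iff]
  refine Fermat.Agent.S24.Ord.adicValuation_le_one_of_isIntegral (R := B) w (fun r => ?_)
    ((Algebra.IsIntegral.isIntegral (R := B) b).map (IsScalarTower.toAlgHom B B' F'))
  rw [← Fermat.Agent.S24.Ord.mem_iff, IsScalarTower.algebraMap_apply B F F',
    ← Place.mem_restrict_iff, hw, mem_placeOfPrime]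
  exact P.valuation_le_one r

section Sum

variable [Module.Finite B B']

/-- a prime of `B'` above `P`, as a height one prime -/
noncomputable def toH (P : HeightOneSpectrum B) (q : P.asIdeal.primesOver B') :
    HeightOneSpectrum B' :=
  ⟨q.1, q.2.1, by
    haveI := q.2.2
    exact Ideal.ne_bot_of_liesOver_of_ne_bot P.ne_bot q.1⟩

instance liesOver_toH (P : HeightOneSpectrum B) (q : P.asIdeal.primesOver B') :
    (toH P q).asIdeal.LiesOver P.asIdeal := q.2.2

variable (K F') in
/-- the place of `F'` of a prime of `B'` above `P` -/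
noncomputable def toPlace (P : HeightOneSpectrum B) (q : P.asIdeal.primesOver B') :
    Place K F' := placeOfPrime (toH P q)

theorem toPlace_injective (P : HeightOneSpectrum B) :
    Function.Injective (toPlace K F' P : P.asIdeal.primesOver B' → Place K F') := by
  intro q q' h
  have h1 := placeOfPrime_injective h
  apply Subtype.ext
  exact congrArg HeightOneSpectrum.asIdeal h1

/-- the fibre over the place of `P` is the set of places of the primes above `P` -/
theorem fiber_eq_image [HasPrincipalDivisors K F'] [DecidableEq (Place K F')]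
    (P : HeightOneSpectrum B) [Fintype (P.asIdeal.primesOver B')] :
    (placeOfPrime (K := K) (F := F) P).fiber F' =
      Finset.univ.image (toPlace K F' P : P.asIdeal.primesOver B' → Place K F') := by
  ext w
  rw [Place.mem_fiber, Finset.mem_image]
  constructor
  · intro hw
    obtain ⟨Q, hQ, hQw⟩ := exists_prime_over P w hw (mem_of_restrict_eq (B' := B') P w hw)
    exact ⟨⟨Q.asIdeal, Q.isPrime, hQ⟩, Finset.mem_univ _, hQw⟩
  · rintro ⟨q, -, rfl⟩
    exact restrict_placeOfPrime P (toH P q)

/-- the ramification indices agree -/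
theorem ramificationIndex_toPlace (P : HeightOneSpectrum B) (q : P.asIdeal.primesOver B') :
    (toPlace K F' P q).ramificationIndex F = q.1.ramificationIdx B := by
  haveI := q.2.1
  haveI : q.1.LiesOver P.asIdeal := q.2.2
  rw [toPlace, ramificationIndex_placeOfPrime (K := K) (F := F) (F' := F') P (toH P q)]
  exact Ideal.ramificationIdx'_eq_ramificationIdx P.asIdeal q.1 P.ne_bot

variable (F F') in
include F F' in
theorem algebraMap_algebraMap (c : K) :
    algebraMap B B' (algebraMap K B c) = algebraMap K B' c := by
  apply IsFractionRing.injective B' F'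
  rw [← IsScalarTower.algebraMap_apply K B' F', ← IsScalarTower.algebraMap_apply B B' F',
    IsScalarTower.algebraMap_apply B F F', ← IsScalarTower.algebraMap_apply K B F,
    ← IsScalarTower.algebraMap_apply K F F']

/-- if all residue fields of `B'` are `K`, the inertia degrees are one -/
theorem inertiaDeg_eq_one
    (hK : ∀ c : K, algebraMap B B' (algebraMap K B c) = algebraMap K B' c)
    (hres : ∀ (Q : HeightOneSpectrum B') (b : B'), ∃ c : K, b - algebraMap K B' c ∈ Q.asIdeal)
    (P : HeightOneSpectrum B) (q : P.asIdeal.primesOver B') : q.1.inertiaDeg B = 1 := by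
  let p : Ideal B := P.asIdeal
  haveI hpmax : p.IsMaximal := P.isMaximal
  haveI := q.2.1
  haveI : q.1.LiesOver p := q.2.2
  haveI : q.1.IsMaximal := (toH P q).isMaximal
  rw [Ideal.inertiaDeg_eq_of_isMaximal p q.1]
  letI : Field (B ⧸ p) := Ideal.Quotient.field p
  refine (finrank_eq_one_iff_of_nonzero' (1 : B' ⧸ q.1) one_ne_zero).mpr ?_
  intro w
  obtain ⟨b, rfl⟩ := Ideal.Quotient.mk_surjective w
  obtain ⟨c, hc⟩ := hres (toH P q) b
  refine ⟨Ideal.Quotient.mk p (algebraMap K B c), ?_⟩
  rw [Algebra.smul_def, mul_one, Ideal.Quotient.algebraMap_mk_of_liesOver]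
  symm
  rw [Ideal.Quotient.eq]
  rw [hK c]
  exact hc

/-- **The fibrewise fundamental identity**, in the chart `B ⊆ B'`, when all residue fields of
`B'` are `K`. -/
theorem sum_ramificationIndex [HasPrincipalDivisors K F']
    (hres : ∀ (Q : HeightOneSpectrum B') (b : B'), ∃ c : K, b - algebraMap K B' c ∈ Q.asIdeal)
    (P : HeightOneSpectrum B) :
    ∑ w ∈ (placeOfPrime (K := K) (F := F) P).fiber F', (w.ramificationIndex F : ℤ) =
      (Module.finrank B B' : ℤ) := by
  classical
  haveI hpmax : P.asIdeal.IsMaximal := P.isMaximal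
  have hfinset : (P.asIdeal.primesOver B').Finite :=
    Algebra.QuasiFinite.finite_primesOver P.asIdeal
  letI : Fintype (P.asIdeal.primesOver B') := hfinset.fintype
  have hsum := Ideal.sum_ramification_inertia_eq_finrank P.asIdeal B'
  rw [fiber_eq_image (B' := B') P, Finset.sum_image fun q _ q' _ h => toPlace_injective P h,
    ← hsum, Nat.cast_sum]
  refine Finset.sum_congr rfl fun q _ => ?_
  rw [ramificationIndex_toPlace P q, inertiaDeg_eq_one (algebraMap_algebraMap F F') hres P q, mul_one]

/-- **The fibrewise norm formula** for elements of `B'`. -/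
theorem sum_ord_algebraMap [HasPrincipalDivisors K F'] [FiniteDimensional F F']
    [PerfectField (FractionRing B)]
    (hres : ∀ (Q : HeightOneSpectrum B') (b : B'), ∃ c : K, b - algebraMap K B' c ∈ Q.asIdeal)
    (P : HeightOneSpectrum B) {b : B'} (hb : b ≠ 0) :
    ∑ w ∈ (placeOfPrime (K := K) (F := F) P).fiber F', w.ord (algebraMap B' F' b) =
      (placeOfPrime (K := K) (F := F) P).ord (Algebra.norm F (algebraMap B' F' b)) := by
  classical
  haveI hpmax : P.asIdeal.IsMaximal := P.isMaximal
  have hfinset : (P.asIdeal.primesOver B').Finite :=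
    Algebra.QuasiFinite.finite_primesOver P.asIdeal
  letI : Fintype (P.asIdeal.primesOver B') := hfinset.fintype
  haveI : IsIntegralClosure B' B F' := IsIntegralClosure.of_isIntegrallyClosed B' B F'
  have hn0 : Algebra.intNorm B B' b ≠ 0 := by
    haveI : FiniteDimensional (FractionRing B) (FractionRing B') :=
      .of_isLocalization B B' (nonZeroDivisors B)
    exact Algebra.intNorm_ne_zero.mpr hb
  rw [← Algebra.algebraMap_intNorm (A := B) (K := F) (L := F') (B := B'),
    placeOfPrime_ord_algebraMap P hn0, ← Ideal.relNorm_singleton,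
    RelNorm.multiplicity_relNorm P.asIdeal P.ne_bot _
      (by rwa [Ne, Ideal.span_singleton_eq_bot]),
    fiber_eq_image (B' := B') P, Finset.sum_image fun q _ q' _ h => toPlace_injective P h,
    Nat.cast_sum]
  refine Finset.sum_congr rfl fun q _ => ?_
  rw [inertiaDeg_eq_one (algebraMap_algebraMap F F') hres P q, mul_one, toPlace, placeOfPrime_ord_algebraMap _ hb]
  rfl

/-- **The fibrewise norm formula**: `∑_{w | v} ord_w f = ord_v (N f)`. -/
theorem sum_ord_eq_ord_norm [HasPrincipalDivisors K F'] [FiniteDimensional F F']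
    [PerfectField (FractionRing B)]
    (hres : ∀ (Q : HeightOneSpectrum B') (b : B'), ∃ c : K, b - algebraMap K B' c ∈ Q.asIdeal)
    (P : HeightOneSpectrum B) {f : F'} (hf : f ≠ 0) :
    ∑ w ∈ (placeOfPrime (K := K) (F := F) P).fiber F', w.ord f =
      (placeOfPrime (K := K) (F := F) P).ord (Algebra.norm F f) := by
  obtain ⟨b₁, b₂, hb₂, rfl⟩ := IsFractionRing.div_surjective (A := B') f
  have hb₂0 : b₂ ≠ 0 := nonZeroDivisors.ne_zero hb₂
  have hb₁0 : b₁ ≠ 0 := by
    rintro rfl
    simp at hf
  have h1 : algebraMap B' F' b₁ ≠ 0 :=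
    (map_ne_zero_iff _ (IsFractionRing.injective B' F')).mpr hb₁0
  have h2 : algebraMap B' F' b₂ ≠ 0 :=
    (map_ne_zero_iff _ (IsFractionRing.injective B' F')).mpr hb₂0
  have hn1 : Algebra.norm F (algebraMap B' F' b₁) ≠ 0 := Algebra.norm_ne_zero_iff.mpr h1
  have hn2 : Algebra.norm F (algebraMap B' F' b₂) ≠ 0 := Algebra.norm_ne_zero_iff.mpr h2
  have hdiv : Algebra.norm F (algebraMap B' F' b₁ / algebraMap B' F' b₂) =
      Algebra.norm F (algebraMap B' F' b₁) * (Algebra.norm F (algebraMap B' F' b₂))⁻¹ := by
    rw [eq_mul_inv_iff_mul_eq₀ hn2, ← map_mul, div_mul_cancel₀ _ h2]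
  rw [hdiv, div_eq_mul_inv, Place.ord_mul _ hn1 (inv_ne_zero hn2),
    Place.ord_inv, ← sum_ord_algebraMap hres P hb₁0, ← sum_ord_algebraMap hres P hb₂0,
    ← sub_eq_add_neg, ← Finset.sum_sub_distrib]
  refine Finset.sum_congr rfl fun w _ => ?_
  rw [Place.ord_mul _ h1 (inv_ne_zero h2), Place.ord_inv, sub_eq_add_neg]

end Sum

end Abstract

end Fermat.Agent.S37.Hecke.Dict
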