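/-
PROJECT I (S37), slice I-3 (helper19): the concrete charts of a finite extension `F'/F` of function
fields over an algebraically closed field of characteristic zero:
`B = intRing K x ⊆ B' = integralClosure B F'`, and the fundamental identity
`∑_{w | v} e(w | v) = [F' : F]`, hence `AlgebraicCurve.FundamentalIdentity K F F'`.
-/
import Fermat.Agent.S37.Hecke.Dict

set_option autoImplicit false
set_option linter.style.haveILetI false
set_option linter.unusedSectionVars false

namespace Fermat.Agent.S37.Hecke.Tower

open AlgebraicCurve IsDedekindDomain WithZero IntermediateField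
open Fermat.Agent.S24.PlacePrime Fermat.Agent.S24.FF Fermat.Agent.S24.Fibre

universe u u' w

variable {K : Type w} {F : Type u} {F' : Type u'} [Field K] [Field F] [Field F']
  [Algebra K F] [Algebra K F'] [Algebra F F'] [IsScalarTower K F F']

/-- the upper chart: the integral closure of `intRing K x` in `F'` -/
abbrev upRing (K : Type w) {F : Type u} (F' : Type u') [Field K] [Field F] [Field F']
    [Algebra K F] [Algebra K F'] [Algebra F F'] [IsScalarTower K F F'] (x : F) :
    Subalgebra (intRing K x) F' := integralClosure (intRing K x) F'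

variable [IsAlgClosed K] [CharZero K] [FiniteDimensional F F'] [HasPrincipalDivisors K F']

set_option synthInstance.maxHeartbeats 400000 in
set_option maxHeartbeats 1600000 in
/-- the fibre sum and the norm formula over a place at which `x` is regular -/
theorem chart_of_le {x : F} (hx : IsFF K x) {x' : F'} (hx' : IsFF K x') (v : Place K F)
    (hv : v.adicValuation x ≤ 1) :
    (∑ w ∈ v.fiber F', (w.ramificationIndex F : ℤ) = (Module.finrank F F' : ℤ)) ∧
      ∀ f : F', f ≠ 0 → ∑ w ∈ v.fiber F', w.ord f = v.ord (Algebra.norm F f) := by
  haveI : CharZero F := charZero_of_injective_algebraMap (algebraMap K F).injective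
  haveI hDed : IsDedekindDomain (intRing K x) := isDedekind hx
  haveI hFr : IsFractionRing (intRing K x) F := isFractionRing hx
  haveI hDed' : IsDedekindDomain (upRing K F' x) :=
    integralClosure.isDedekindDomain (intRing K x) F F'
  haveI hFr' : IsFractionRing (upRing K F' x) F' :=
    integralClosure.isFractionRing_of_finite_extension F F'
  haveI hfin : Module.Finite (intRing K x) (upRing K F' x) :=
    IsIntegralClosure.finite (intRing K x) F F' (upRing K F' x)
  letI iA : Algebra K (upRing K F' x) := inferInstance
  haveI iT : IsScalarTower K (upRing K F' x) F' := inferInstance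
  haveI iT2 : IsScalarTower (intRing K x) (upRing K F' x) F' := inferInstance
  haveI iI : Algebra.IsIntegral (intRing K x) (upRing K F' x) := inferInstance
  haveI iTF : Module.IsTorsionFree (intRing K x) (upRing K F' x) := inferInstance
  haveI iC0 : CharZero (intRing K x) :=
    charZero_of_injective_algebraMap (FaithfulSMul.algebraMap_injective K (intRing K x))
  haveI iC : CharZero (FractionRing (intRing K x)) :=
    charZero_of_injective_algebraMap
      (FaithfulSMul.algebraMap_injective (intRing K x) (FractionRing (intRing K x)))
  haveI iP : PerfectField (FractionRing (intRing K x)) := inferInstance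
  obtain ⟨P, hP⟩ := exists_prime hx v hv
  have hres : ∀ (Q : HeightOneSpectrum (upRing K F' x)) (b : upRing K F' x),
      ∃ c : K, b - algebraMap K (upRing K F' x) c ∈ Q.asIdeal := by
    intro Q b
    have hb : (placeOfPrime (K := K) (F := F') Q).adicValuation
        (algebraMap (upRing K F' x) F' b) ≤ 1 := by
      rw [adicValuation_placeOfPrime]
      exact Q.valuation_le_one b
    obtain ⟨c, hc⟩ := Fermat.Agent.S24.Ord.exists_sub_lt_one hx' _ hb
    refine ⟨c, ?_⟩
    rw [adicValuation_placeOfPrime] at hc
    have h2 : algebraMap (upRing K F' x) F' b - algebraMap K F' c =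
        algebraMap (upRing K F' x) F' (b - algebraMap K (upRing K F' x) c) := by
      rfl
    rw [h2, HeightOneSpectrum.valuation_lt_one_iff_mem] at hc
    exact hc
  rw [← hP]
  refine ⟨?_, fun f hf => ?_⟩
  · rw [Dict.sum_ramificationIndex (K := K) (F := F) (F' := F') (B := intRing K x)
      (B' := upRing K F' x) hres P]
    rw [IsFractionRing.finrank_eq (intRing K x) F (upRing K F' x) F']
  · exact Dict.sum_ord_eq_ord_norm (K := K) (F := F) (F' := F') (B := intRing K x)
      (B' := upRing K F' x) hres P hf

/-- the fibre sum over a place at which `x` is regular -/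
theorem sum_fiber_of_le {x : F} (hx : IsFF K x) {x' : F'} (hx' : IsFF K x') (v : Place K F)
    (hv : v.adicValuation x ≤ 1) :
    ∑ w ∈ v.fiber F', (w.ramificationIndex F : ℤ) = (Module.finrank F F' : ℤ) :=
  (chart_of_le hx hx' v hv).1

/-- the fibre sum `∑_{w | v} e(w | v) = [F' : F]` -/
theorem sum_fiber {x : F} (hx : IsFF K x) {x' : F'} (hx' : IsFF K x') (v : Place K F) :
    ∑ w ∈ v.fiber F', (w.ramificationIndex F : ℤ) = (Module.finrank F F' : ℤ) := by
  by_cases hv : v.adicValuation x ≤ 1
  · exact sum_fiber_of_le hx hx' v hv
  · refine sum_fiber_of_le hx.inv hx' v ?_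
    rw [map_inv₀]
    exact inv_le_one_of_one_le₀ (le_of_lt (not_le.mp hv))

/-- **The fundamental identity** for a finite extension of function fields over an algebraically
closed field of characteristic zero. -/
theorem fundamentalIdentity {x : F} (hx : IsFF K x) {x' : F'} (hx' : IsFF K x') :
    FundamentalIdentity K F F' where
  sum_ramificationIndex_mul_deg v := by
    rw [Fermat.Agent.S24.Ord.deg_eq_one hx v, Nat.cast_one, mul_one, ← sum_fiber hx hx' v]
    refine Finset.sum_congr rfl fun w _ => ?_
    rw [Fermat.Agent.S24.Ord.deg_eq_one hx' w, Nat.cast_one, mul_one]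

/-- the norm formula `∑_{w | v} ord_w f = ord_v (N f)` -/
theorem sum_ord_fiber {x : F} (hx : IsFF K x) {x' : F'} (hx' : IsFF K x') (v : Place K F)
    {f : F'} (hf : f ≠ 0) :
    ∑ w ∈ v.fiber F', w.ord f = v.ord (Algebra.norm F f) := by
  by_cases hv : v.adicValuation x ≤ 1
  · exact (chart_of_le hx hx' v hv).2 f hf
  · refine (chart_of_le hx.inv hx' v ?_).2 f hf
    rw [map_inv₀]
    exact inv_le_one_of_one_le₀ (le_of_lt (not_le.mp hv))

/-- the place-level inertia degree is one -/
theorem inertiaDeg_eq_one {x : F} (hx : IsFF K x) {x' : F'} (hx' : IsFF K x') (w : Place K F') :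
    w.inertiaDeg F = 1 := by
  have h := w.deg_restrict_mul_inertiaDeg (F := F)
  rwa [Fermat.Agent.S24.Ord.deg_eq_one hx, Fermat.Agent.S24.Ord.deg_eq_one hx', one_mul] at h

/-- **The norm formula** `pushforward (div f) = div (N f)` for a finite extension of function
fields over an algebraically closed field of characteristic zero. -/
theorem pushforwardNormFormula {x : F} (hx : IsFF K x) {x' : F'} (hx' : IsFF K x') :
    Divisor.PushforwardNormFormula K F F' := by
  classical
  intro f hf D hD v
  rw [Divisor.pushforward_apply, ← sum_ord_fiber hx hx' v hf]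
  rw [← Finset.sum_filter]
  refine Finset.sum_subset_zero_on_sdiff ?_ ?_ ?_
  · intro w hw
    rw [Finset.mem_filter] at hw
    exact Place.mem_fiber.mpr hw.2
  · intro w hw
    rw [Finset.mem_sdiff, Place.mem_fiber, Finset.mem_filter, Finsupp.mem_support_iff] at hw
    have h1 : D w = 0 := by
      by_contra h
      exact hw.2 ⟨h, hw.1⟩
    rw [← hD w, h1]
  · intro w _
    rw [hD w, inertiaDeg_eq_one hx hx' w, Nat.cast_one, mul_one]

end Fermat.Agent.S37.Hecke.Tower
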