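/-
PROJECT I (S37), slice I-3d (helper19): the Hecke inputs in characteristic zero.

* general: for a `K`-homomorphism `φ : F₁ →ₐ[K] F₂` of function fields over an algebraically closed
  field of characteristic zero, `FundamentalIdentityAlong K φ` and `NormFormulaAlong K φ`;
* `heckeInputsAlong_bar N ℓ : HeckeInputsAlong ℚ̄ N ℓ`, so that `heckeOperatorAlong ℚ̄ N ℓ` (hence
  `heckeOperatorBar N ℓ`) is the genuine correspondence `α_* β^*` and not the junk value `0`.
-/
import Fermat.Agent.S37.Hecke.Integral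
import Fermat.Agent.S37.Hecke.Tower
import Fermat.Prelude.Def_ModularCurve_HeckeModule

set_option autoImplicit false
set_option linter.style.haveILetI false

namespace Fermat.Agent.S37.Hecke.Inputs

open AlgebraicCurve ModularCurve Fermat.Agent.S24.FF Fermat.Agent.S18.A.Instances
  Fermat.Agent.S37.Hecke.Integral

section General

universe u w

variable {K : Type w} {F₁ F₂ : Type u} [Field K] [Field F₁] [Field F₂] [Algebra K F₁]
  [Algebra K F₂] [IsAlgClosed K] [CharZero K] [HasPrincipalDivisors K F₂]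

/-- the fundamental identity along a homomorphism of function fields -/
theorem fundamentalIdentityAlong (φ : F₁ →ₐ[K] F₂) (hφ : φ.toRingHom.IsIntegral)
    (hfin : FiniteAlong K φ) {x₁ : F₁} (h₁ : IsFF K x₁) {x₂ : F₂} (h₂ : IsFF K x₂) :
    FundamentalIdentityAlong K φ hφ := by
  letI := algebraAlong φ
  haveI := isScalarTower_along φ
  haveI : FiniteDimensional F₁ F₂ := hfin
  exact Tower.fundamentalIdentity h₁ h₂

/-- the norm formula along a homomorphism of function fields -/
theorem normFormulaAlong (φ : F₁ →ₐ[K] F₂) (hfin : FiniteAlong K φ) {x₁ : F₁} (h₁ : IsFF K x₁)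
    {x₂ : F₂} (h₂ : IsFF K x₂) : NormFormulaAlong K φ hfin := by
  letI := algebraAlong φ
  haveI := isScalarTower_along φ
  haveI : FiniteDimensional F₁ F₂ := hfin
  exact Tower.pushforwardNormFormula h₁ h₂

end General

section Bar

local notation "Kb" => AlgebraicClosure ℚ

variable (N ℓ : ℕ) [NeZero N] [NeZero ℓ]

/-- the fundamental identity along `β` -/
theorem fundamentalIdentityAlong_beta :
    haveI := hasPrincipalDivisors_level N ℓ
    FundamentalIdentityAlong Kb (heckeBetaBar Kb N ℓ) (betaIntegral N ℓ) :=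
  haveI := hasPrincipalDivisors_level N ℓ
  fundamentalIdentityAlong _ _ (finiteAlong_beta N ℓ) (isFF_jgen N) (isFF_jgen (N * ℓ))

/-- the fundamental identity along `α` -/
theorem fundamentalIdentityAlong_alpha :
    haveI := hasPrincipalDivisors_level N ℓ
    FundamentalIdentityAlong Kb (heckeAlphaBar Kb N ℓ) (alphaIntegral N ℓ) :=
  haveI := hasPrincipalDivisors_level N ℓ
  fundamentalIdentityAlong _ _ (finiteAlong_alpha N ℓ) (isFF_jgen N) (isFF_jgen (N * ℓ))

/-- the norm formula along `α` -/
theorem normFormulaAlong_alpha :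
    NormFormulaAlong Kb (heckeAlphaBar Kb N ℓ) (finiteAlong_alpha N ℓ) :=
  haveI := hasPrincipalDivisors_level N ℓ
  normFormulaAlong _ _ (isFF_jgen N) (isFF_jgen (N * ℓ))

/-- the norm formula along `β` -/
theorem normFormulaAlong_beta :
    NormFormulaAlong Kb (heckeBetaBar Kb N ℓ) (finiteAlong_beta N ℓ) :=
  haveI := hasPrincipalDivisors_level N ℓ
  normFormulaAlong _ _ (isFF_jgen N) (isFF_jgen (N * ℓ))

/-- **The Hecke inputs hold over `ℚ̄`.** -/
theorem heckeInputsAlong_bar : HeckeInputsAlong Kb N ℓ :=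
  ⟨alphaIntegral N ℓ, betaIntegral N ℓ, hasPrincipalDivisors_level N ℓ, finiteAlong_alpha N ℓ,
    fundamentalIdentityAlong_beta N ℓ, normFormulaAlong_alpha N ℓ⟩

/-- the Hecke operator over `ℚ̄` is the genuine correspondence -/
theorem heckeOperatorAlong_bar_eq :
    haveI := hasPrincipalDivisors_level N ℓ
    heckeOperatorAlong Kb N ℓ =
      heckePic0Bar (alphaIntegral N ℓ) (betaIntegral N ℓ) (fundamentalIdentityAlong_beta N ℓ)
        (finiteAlong_alpha N ℓ) (normFormulaAlong_alpha N ℓ) :=
  haveI := hasPrincipalDivisors_level N ℓ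
  heckeOperatorAlong_eq _ _ _ _ _

/-- the Hecke operator on the class of a divisor of degree zero -/
theorem heckeOperatorAlong_bar_mk
    (D : Divisor.degZero (K := Kb) (F := laurentBaseChange Kb (modularFunctionFieldFull N))) :
    haveI := hasPrincipalDivisors_level N ℓ
    heckeOperatorAlong Kb N ℓ (Pic0.mk D) =
      Pic0.mk (Pic0.degZeroCorrespondence (heckeBetaBar Kb N ℓ) (heckeAlphaBar Kb N ℓ)
        (betaIntegral N ℓ) (alphaIntegral N ℓ) (fundamentalIdentityAlong_beta N ℓ) D) := by
  haveI := hasPrincipalDivisors_level N ℓ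
  rw [heckeOperatorAlong_bar_eq]
  rfl

/-- `heckeOperatorBar` on the class of a divisor of degree zero -/
theorem heckeOperatorBar_mk (ℓ : Nat.Primes)
    (D : Divisor.degZero (K := Kb) (F := laurentBaseChange Kb (modularFunctionFieldFull N))) :
    haveI : NeZero (ℓ : ℕ) := ⟨ℓ.2.ne_zero⟩
    haveI := hasPrincipalDivisors_level N ℓ
    heckeOperatorBar N ℓ (Pic0.mk D) =
      Pic0.mk (Pic0.degZeroCorrespondence (heckeBetaBar Kb N ℓ) (heckeAlphaBar Kb N ℓ)
        (betaIntegral N ℓ) (alphaIntegral N ℓ) (fundamentalIdentityAlong_beta N ℓ) D) := by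
  haveI : NeZero (ℓ : ℕ) := ⟨ℓ.2.ne_zero⟩
  rw [heckeOperatorBar_apply]
  exact heckeOperatorAlong_bar_mk N ℓ D

end Bar

end Fermat.Agent.S37.Hecke.Inputs
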