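/-
PROJECT I (S37), slice I-2b support (helper19): divisor-level facts about a correspondence
`ψ_* φ^*`, and their instances for `T_ℓ = α_* β^*` over `ℚ̄`.

* `correspondence_principal` : `ψ_* φ^* (div u) = div (N_ψ (φ u))`;
* `pullbackAlong_nonneg`, `pushforwardAlong_nonneg`, `correspondence_nonneg`;
* `heckeDivBar_principal`, `heckeDivBar_nonneg`, `degree_heckeDivBar_single`.
-/
import Fermat.Agent.S37.Hecke.Inputs
import Fermat.Agent.S37.ES.NormRed

set_option autoImplicit false
set_option linter.style.haveILetI false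
set_option linter.unusedSectionVars false

namespace Fermat.Agent.S37.Hecke.Principal

open AlgebraicCurve ModularCurve

section General

variable {K F F' : Type*} [Field K] [Field F] [Field F'] [Algebra K F] [Algebra K F']

/-- the norm along a homomorphism -/
noncomputable def normAlong (ψ : F →ₐ[K] F') (f : F') : F :=
  letI := algebraAlong ψ
  Algebra.norm F f

variable [HasPrincipalDivisors K F']
variable (φ ψ : F →ₐ[K] F') (hφ : φ.toRingHom.IsIntegral) (hψ : ψ.toRingHom.IsIntegral)

/-- the pull-back of the divisor of `u` is the divisor of `φ u` -/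
theorem pullbackAlong_principal {u : F} {D : Divisor K F} (hD : ∀ v : Place K F, D v = v.ord u)
    (w : Place K F') : Divisor.pullbackAlong φ hφ D w = w.ord (φ u) := by
  letI := algebraAlong φ
  haveI := isScalarTower_along φ
  haveI := isIntegral_along φ hφ
  exact Divisor.pullback_apply_eq_ord hD w

/-- **`ψ_* φ^* (div u) = div (N_ψ (φ u))`** -/
theorem correspondence_principal (hfin : FiniteAlong K ψ) (hN : NormFormulaAlong K ψ hfin)
    {u : F} (hu : u ≠ 0) {D : Divisor K F} (hD : ∀ v : Place K F, D v = v.ord u)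
    (v : Place K F) :
    Divisor.correspondence φ ψ hφ hψ D v = v.ord (normAlong ψ (φ u)) := by
  rw [Divisor.correspondence_apply]
  have h1 := pullbackAlong_principal φ hφ hD
  have hφu : φ u ≠ 0 := (map_ne_zero_iff _ φ.injective).mpr hu
  letI := algebraAlong ψ
  haveI := isScalarTower_along ψ
  haveI := isIntegral_along ψ hψ
  haveI : Module.Finite F F' := hfin
  exact hN (φ u) hφu _ h1 v

/-- the pull-back of an effective divisor is effective -/
theorem pullbackAlong_nonneg {D : Divisor K F} (hD : 0 ≤ D) :
    0 ≤ Divisor.pullbackAlong φ hφ D := by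
  intro w
  rw [Divisor.pullbackAlong_apply]
  exact mul_nonneg (Int.natCast_nonneg _) (hD _)

/-- the push-forward of an effective divisor is effective -/
theorem pushforwardAlong_nonneg {D : Divisor K F'} (hD : 0 ≤ D) :
    0 ≤ Divisor.pushforwardAlong ψ hψ D := by
  classical
  induction D using Finsupp.induction with
  | zero => simp
  | single_add w n D hw hn ih =>
    have hn0 : 0 ≤ n := by
      have := hD w
      simpa [Finsupp.add_apply, Finsupp.notMem_support_iff.mp hw] using this
    have hD0 : 0 ≤ D := by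
      intro w'
      by_cases h : w' = w
      · subst h
        rw [Finsupp.notMem_support_iff.mp hw]
        rfl
      · have := hD w'
        simpa [Finsupp.add_apply, Finsupp.single_eq_of_ne h] using this
    rw [map_add, Divisor.pushforwardAlong_single]
    refine add_nonneg ?_ (ih hD0)
    intro v
    rw [Finsupp.single_apply]
    split_ifs
    · exact mul_nonneg hn0 (Int.natCast_nonneg _)
    · rfl

/-- the image of an effective divisor under a correspondence is effective -/
theorem correspondence_nonneg {D : Divisor K F} (hD : 0 ≤ D) :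
    0 ≤ Divisor.correspondence φ ψ hφ hψ D :=
  pushforwardAlong_nonneg ψ hψ (pullbackAlong_nonneg φ hφ hD)

end General

section Bar

open Fermat.Agent.S37.Hecke.Integral Fermat.Agent.S37.Hecke.Inputs Fermat.Agent.S37.ES

local notation "Kb" => AlgebraicClosure ℚ

variable (N ℓ : ℕ) [NeZero N] [NeZero ℓ]

/-- `T_ℓ` on divisors, with all inputs supplied -/
noncomputable def heckeDiv :
    Divisor Kb (laurentBaseChange Kb (modularFunctionFieldFull N)) →+
      Divisor Kb (laurentBaseChange Kb (modularFunctionFieldFull N)) :=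
  haveI := hasPrincipalDivisors_level N ℓ
  heckeDivBar (alphaIntegral N ℓ) (betaIntegral N ℓ)

theorem heckeDiv_def :
    haveI := hasPrincipalDivisors_level N ℓ
    heckeDiv N ℓ = heckeDivBar (alphaIntegral N ℓ) (betaIntegral N ℓ) := rfl

/-- **`T_ℓ (div u) = div (N_{E/αF} (β u))`** -/
theorem heckeDiv_principal {u : laurentBaseChange Kb (modularFunctionFieldFull N)} (hu : u ≠ 0)
    {D : Divisor Kb (laurentBaseChange Kb (modularFunctionFieldFull N))}
    (hD : ∀ v, D v = v.ord u) (v : Place Kb (laurentBaseChange Kb (modularFunctionFieldFull N))) :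
    heckeDiv N ℓ D v = v.ord (NormRed.normBeta N ℓ u) :=
  haveI := hasPrincipalDivisors_level N ℓ
  correspondence_principal _ _ _ _ (finiteAlong_alpha N ℓ) (normFormulaAlong_alpha N ℓ) hu hD v

/-- `T_ℓ` preserves effective divisors -/
theorem heckeDiv_nonneg {D : Divisor Kb (laurentBaseChange Kb (modularFunctionFieldFull N))}
    (hD : 0 ≤ D) : 0 ≤ heckeDiv N ℓ D :=
  haveI := hasPrincipalDivisors_level N ℓ
  correspondence_nonneg _ _ _ _ hD

/-- `deg (T_ℓ D) = (ℓ + 1) deg D` -/
theorem degree_heckeDiv (hℓ : ℓ.Prime) (hℓN : ¬ ℓ ∣ N)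
    (D : Divisor Kb (laurentBaseChange Kb (modularFunctionFieldFull N))) :
    Divisor.degree (heckeDiv N ℓ D) = ((ℓ : ℤ) + 1) * Divisor.degree D := by
  haveI := hasPrincipalDivisors_level N ℓ
  have h := Divisor.degree_correspondence (heckeBetaBar Kb N ℓ) (heckeAlphaBar Kb N ℓ)
    (betaIntegral N ℓ) (alphaIntegral N ℓ) (fundamentalIdentityAlong_beta N ℓ) D
  rw [DegreeBeta.finrankAlong_beta N hℓ hℓN] at h
  push_cast at h
  exact h

/-- the divisor underlying `degZeroCorrespondence` is `heckeDiv` -/
theorem coe_degZeroCorrespondence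
    (D : Divisor.degZero (K := Kb) (F := laurentBaseChange Kb (modularFunctionFieldFull N))) :
    haveI := hasPrincipalDivisors_level N ℓ
    ((Pic0.degZeroCorrespondence (heckeBetaBar Kb N ℓ) (heckeAlphaBar Kb N ℓ)
        (betaIntegral N ℓ) (alphaIntegral N ℓ) (fundamentalIdentityAlong_beta N ℓ) D :
        Divisor.degZero (K := Kb) (F := laurentBaseChange Kb (modularFunctionFieldFull N))) :
      Divisor Kb (laurentBaseChange Kb (modularFunctionFieldFull N))) =
      heckeDiv N ℓ (D : Divisor Kb (laurentBaseChange Kb (modularFunctionFieldFull N))) :=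
  rfl

/-! ### the same statements for `heckeDivBar` directly -/

/-- **`T_ℓ (div u) = div (N_{E/αF} (β u))`**, for `heckeDivBar` -/
theorem heckeDivBar_principal {u : laurentBaseChange Kb (modularFunctionFieldFull N)} (hu : u ≠ 0)
    {D : Divisor Kb (laurentBaseChange Kb (modularFunctionFieldFull N))}
    (hD : ∀ v, D v = v.ord u) (v : Place Kb (laurentBaseChange Kb (modularFunctionFieldFull N))) :
    haveI := hasPrincipalDivisors_level N ℓ
    heckeDivBar (alphaIntegral N ℓ) (betaIntegral N ℓ) D v = v.ord (NormRed.normBeta N ℓ u) :=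
  heckeDiv_principal N ℓ hu hD v

/-- `T_ℓ` preserves effective divisors, for `heckeDivBar` -/
theorem heckeDivBar_nonneg {D : Divisor Kb (laurentBaseChange Kb (modularFunctionFieldFull N))}
    (hD : 0 ≤ D) :
    haveI := hasPrincipalDivisors_level N ℓ
    0 ≤ heckeDivBar (alphaIntegral N ℓ) (betaIntegral N ℓ) D :=
  heckeDiv_nonneg N ℓ hD

/-- `T_ℓ P` is effective -/
theorem heckeDivBar_single_nonneg
    (P : Place Kb (laurentBaseChange Kb (modularFunctionFieldFull N))) :
    haveI := hasPrincipalDivisors_level N ℓ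
    0 ≤ heckeDivBar (alphaIntegral N ℓ) (betaIntegral N ℓ) (Finsupp.single P 1) := by
  classical
  refine heckeDiv_nonneg N ℓ ?_
  intro w
  rw [Finsupp.single_apply]
  split_ifs
  · exact zero_le_one
  · rfl

/-- `deg (T_ℓ D) = (ℓ + 1) deg D`, for `heckeDivBar` -/
theorem degree_heckeDivBar (hℓ : ℓ.Prime) (hℓN : ¬ ℓ ∣ N)
    (D : Divisor Kb (laurentBaseChange Kb (modularFunctionFieldFull N))) :
    haveI := hasPrincipalDivisors_level N ℓ
    Divisor.degree (heckeDivBar (alphaIntegral N ℓ) (betaIntegral N ℓ) D) =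
      ((ℓ : ℤ) + 1) * Divisor.degree D :=
  degree_heckeDiv N ℓ hℓ hℓN D

/-- `deg (T_ℓ P) = ℓ + 1` -/
theorem degree_heckeDivBar_single (hℓ : ℓ.Prime) (hℓN : ¬ ℓ ∣ N)
    (P : Place Kb (laurentBaseChange Kb (modularFunctionFieldFull N))) :
    haveI := hasPrincipalDivisors_level N ℓ
    Divisor.degree (heckeDivBar (alphaIntegral N ℓ) (betaIntegral N ℓ) (Finsupp.single P 1)) =
      (ℓ : ℤ) + 1 := by
  have h := degree_heckeDiv N ℓ hℓ hℓN (Finsupp.single P 1)
  rw [Divisor.degree_single, Fermat.Agent.S18.A.Instances.deg_one_bar, one_mul, Nat.cast_one,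
    mul_one] at h
  exact h

end Bar

end Fermat.Agent.S37.Hecke.Principal
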